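import Fermat.Agent.S14.H514.KummerBound

/-!
# S14, density block N3 (concrete form)

`K` a number field containing a primitive `p`-th root of unity, `d ∈ 𝓞 K` not a `p`-th power in
`K`.  Then the primes `𝔮` of `K` with `p, d ∉ 𝔮` modulo which `d` is a `p`-th power satisfy
`p * ∑ N(𝔮)^(-s) ≤ log (1 / (s - 1)) + C` on `(1, 2]`.
-/

set_option autoImplicit false
set_option linter.style.haveILetI false

noncomputable section

namespace Fermat.Agent.S14.H514

open NumberField Ideal Filter Topology IsDedekindDomain Polynomial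
open scoped nonZeroDivisors

variable (K : Type) [Field K] [NumberField K]

/-- **N3.** Upper density bound `1 / p` for the Kummer-split primes, in the form of an inequality
between prime zeta sums and `log (1 / (s - 1))`. -/
theorem exists_kummer_bound {p : ℕ} (hp : p.Prime) {ζ : K} (hζ : IsPrimitiveRoot ζ p)
    (d : 𝓞 K) (hd : ∀ b : K, b ^ p ≠ algebraMap (𝓞 K) K d) :
    ∃ C : ℝ, ∀ s : ℝ, 1 < s → s ≤ 2 →
      (p : ℝ) * NumberField.Set.primeIdealZetaSum (kummerSet K p d) s ≤
        Real.log (1 / (s - 1)) + C := by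
  haveI : NeZero p := ⟨hp.ne_zero⟩
  have H : Irreducible (X ^ p - C (algebraMap (𝓞 K) K d)) := X_pow_sub_C_irreducible_of_prime hp hd
  have hprim : (primitiveRoots p K).Nonempty := ⟨ζ, (mem_primitiveRoots hp.pos).2 hζ⟩
  -- the Kummer extension
  let L := (X ^ p - C (algebraMap (𝓞 K) K d)).SplittingField
  haveI : NumberField L := NumberField.of_module_finite K L
  haveI : IsGalois K L := isGalois_of_isSplittingField_X_pow_sub_C hprim H L
  have hdeg : Module.finrank K L = p := finrank_of_isSplittingField_X_pow_sub_C hprim H L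
  -- the root
  let α : L := rootOfSplitsXPowSubC hp.pos (algebraMap (𝓞 K) K d) L
  have hα : α ^ p = algebraMap K L (algebraMap (𝓞 K) K d) :=
    rootOfSplitsXPowSubC_pow (algebraMap (𝓞 K) K d) L
  have hαint : IsIntegral ℤ α := by
    refine IsIntegral.of_pow hp.pos ?_
    rw [hα]
    exact (d.2 : IsIntegral ℤ (algebraMap (𝓞 K) K d)).algebraMap
  let θ : 𝓞 L := ⟨α, hαint⟩
  have hθ : θ ^ p = algebraMap (𝓞 K) (𝓞 L) d := by
    apply RingOfIntegers.coe_injective
    rw [map_pow, ← IsScalarTower.algebraMap_apply, IsScalarTower.algebraMap_apply (𝓞 K) K L]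
    exact hα
  -- the automorphism
  let τ : Gal(L/K) := (autEquivZmod H L hζ).symm (Multiplicative.ofAdd ((1 : ℕ) : ZMod p))
  have hτα : τ α = ζ • α := by
    have := autEquivZmod_symm_apply_natCast H L hα hζ 1
    rwa [pow_one] at this
  have hτ : τ • θ = algebraMap (𝓞 K) (𝓞 L) hζ.toInteger * θ := by
    apply RingOfIntegers.coe_injective
    have h1 : algebraMap (𝓞 L) L (τ • θ) = τ (algebraMap (𝓞 L) L θ) := rfl
    rw [h1, map_mul, ← IsScalarTower.algebraMap_apply, IsScalarTower.algebraMap_apply (𝓞 K) K L]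
    show τ α = algebraMap K L ζ * α
    rw [hτα, Algebra.smul_def]
  obtain ⟨C, hC0, hC⟩ := exists_idealZeta_le L
  refine ⟨Real.log C + idealZeta L 2, fun s hs1 hs2 ↦ ?_⟩
  have h := kummer_primeIdealZetaSum_le hp hdeg hζ.toInteger_isPrimitiveRoot hθ τ hτ hs1
  have hs0 : 0 < s - 1 := sub_pos.2 hs1
  have h2 : Real.log (idealZeta L s) ≤ Real.log (1 / (s - 1)) + Real.log C := by
    rw [← Real.log_mul (by positivity) hC0.ne']
    refine Real.log_le_log (idealZeta_pos L hs1) ?_
    rw [one_div_mul_eq_div]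
    exact hC s hs1 hs2
  linarith

end Fermat.Agent.S14.H514
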