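import Fermat.Agent.S14.Spec
import Fermat.Agent.S14.H514.KummerConcrete

/-!
# S14, density block N5: assembly of `Spec.DensityStatement`

`density_of_bounds`: the conclusion of `Spec.DensityStatement` for a given `p`, `K`, `χ`, from
* `hδ` : `δ` is not a `p`-th power in `K`                       (units block, U1);
* `hχ` : `p * ∑_{χ(v) = 1} N(v)^(-s) ≤ log (1/(s-1)) + C`       (N1 + N2);
* `h1` : `log (1/(s-1)) ≤ ∑_{N(v) prime} N(v)^(-s) + C`         (N4);
together with N3 (`exists_kummer_bound`, proved in this directory).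
-/

set_option autoImplicit false
set_option linter.style.haveILetI false

noncomputable section

namespace Fermat.Agent.S14.H514

open NumberField Ideal Filter Topology IsDedekindDomain
open scoped nonZeroDivisors

section SetLemmas

variable {K : Type} [Field K] [NumberField K]

theorem primeIdealZetaSum_mono {A B : Set (HeightOneSpectrum (𝓞 K))} (h : A ⊆ B) {s : ℝ}
    (hs : 1 < s) :
    NumberField.Set.primeIdealZetaSum A s ≤ NumberField.Set.primeIdealZetaSum B s := by
  rw [NumberField.Set.primeIdealZetaSum_def, NumberField.Set.primeIdealZetaSum_def,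
    tsum_subtype A (fun v : HeightOneSpectrum (𝓞 K) ↦ (absNorm v.asIdeal : ℝ) ^ (-s)),
    tsum_subtype B (fun v : HeightOneSpectrum (𝓞 K) ↦ (absNorm v.asIdeal : ℝ) ^ (-s))]
  refine Summable.tsum_le_tsum (fun v ↦ ?_) ((summable_heightOne K hs).indicator A)
    ((summable_heightOne K hs).indicator B)
  exact Set.indicator_le_indicator_of_subset h
    (fun _ ↦ Real.rpow_nonneg (Nat.cast_nonneg _) _) v

theorem primeIdealZetaSum_union_le (A B : Set (HeightOneSpectrum (𝓞 K))) {s : ℝ} (hs : 1 < s) :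
    NumberField.Set.primeIdealZetaSum (A ∪ B) s ≤
      NumberField.Set.primeIdealZetaSum A s + NumberField.Set.primeIdealZetaSum B s := by
  classical
  rw [NumberField.Set.primeIdealZetaSum_def, NumberField.Set.primeIdealZetaSum_def,
    NumberField.Set.primeIdealZetaSum_def,
    tsum_subtype A (fun v : HeightOneSpectrum (𝓞 K) ↦ (absNorm v.asIdeal : ℝ) ^ (-s)),
    tsum_subtype B (fun v : HeightOneSpectrum (𝓞 K) ↦ (absNorm v.asIdeal : ℝ) ^ (-s)),
    tsum_subtype (A ∪ B) (fun v : HeightOneSpectrum (𝓞 K) ↦ (absNorm v.asIdeal : ℝ) ^ (-s)),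
    ← Summable.tsum_add ((summable_heightOne K hs).indicator A)
      ((summable_heightOne K hs).indicator B)]
  refine Summable.tsum_le_tsum (fun v ↦ ?_) ((summable_heightOne K hs).indicator (A ∪ B))
    (((summable_heightOne K hs).indicator A).add ((summable_heightOne K hs).indicator B))
  have h0 : 0 ≤ (absNorm v.asIdeal : ℝ) ^ (-s) := Real.rpow_nonneg (Nat.cast_nonneg _) _
  by_cases hA : v ∈ A <;> by_cases hB : v ∈ B <;>
    simp [Set.indicator, hA, hB, h0]

theorem finite_setOf_mem {a : 𝓞 K} (ha : a ≠ 0) :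
    {v : HeightOneSpectrum (𝓞 K) | a ∈ v.asIdeal}.Finite := by
  have h := Ideal.finite_factors (I := Ideal.span {a}) (by
    rw [Ne, Ideal.zero_eq_bot, Ideal.span_singleton_eq_bot]; exact ha)
  refine h.subset fun v hv ↦ ?_
  exact Ideal.dvd_span_singleton.2 hv

end SetLemmas

/-- A height one prime as a nonzero ideal. -/
def toNZD {K : Type} [Field K] [NumberField K] (v : HeightOneSpectrum (𝓞 K)) :
    (Ideal (𝓞 K))⁰ :=
  ⟨v.asIdeal, mem_nonZeroDivisors_of_ne_zero v.ne_bot⟩

section Assembly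

variable (p : ℕ) [hp : Fact p.Prime]
variable (K : Type) [Field K] [NumberField K] [IsCyclotomicExtension {p} ℚ K]

/-- **N5.** The conclusion of `Spec.DensityStatement` from the three analytic bounds. -/
theorem density_of_bounds (h3 : 3 ≤ p)
    (χ : ClassGroup (𝓞 K) →* Multiplicative (ZMod p))
    (hδ : ∀ b : K, b ^ p ≠ algebraMap (𝓞 K) K (Spec.delta p K))
    (hχ : ∃ C : ℝ, ∀ s : ℝ, 1 < s → s ≤ 2 →
      (p : ℝ) * NumberField.Set.primeIdealZetaSum
        {v : HeightOneSpectrum (𝓞 K) | χ (ClassGroup.mk0 (toNZD v)) = 1} s ≤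
          Real.log (1 / (s - 1)) + C)
    (h1 : ∃ C : ℝ, ∀ s : ℝ, 1 < s → s ≤ 2 →
      Real.log (1 / (s - 1)) ≤ NumberField.Set.primeIdealZetaSum
        {v : HeightOneSpectrum (𝓞 K) | (absNorm v.asIdeal).Prime} s + C) :
    ∃ Q : (Ideal (𝓞 K))⁰, Spec.IsGoodPrime p K (Q : Ideal (𝓞 K)) ∧ χ (ClassGroup.mk0 Q) ≠ 1 := by
  classical
  haveI : NeZero p := ⟨hp.out.ne_zero⟩
  by_contra hcon0
  have hcon : ∀ Q : (Ideal (𝓞 K))⁰, Spec.IsGoodPrime p K (Q : Ideal (𝓞 K)) →
      χ (ClassGroup.mk0 Q) = 1 := fun Q hQ ↦ by_contra fun h ↦ hcon0 ⟨Q, hQ, h⟩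
  have hζ : IsPrimitiveRoot (IsCyclotomicExtension.zeta p ℚ K) p :=
    IsCyclotomicExtension.zeta_spec p ℚ K
  obtain ⟨C₃, hC₃⟩ := exists_kummer_bound K hp.out hζ (Spec.delta p K) hδ
  obtain ⟨C₂, hC₂⟩ := hχ
  obtain ⟨C₁, hC₁⟩ := h1
  have hδ0 : Spec.delta p K ≠ 0 := by
    intro h
    exact hδ 0 (by rw [h, map_zero, zero_pow hp.out.ne_zero])
  have hp0 : (p : 𝓞 K) ≠ 0 := Nat.cast_ne_zero.2 hp.out.ne_zero
  -- the sets
  set D₁ : Set (HeightOneSpectrum (𝓞 K)) := {v | (absNorm v.asIdeal).Prime} with hD₁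
  set S₀ : Set (HeightOneSpectrum (𝓞 K)) := {v | χ (ClassGroup.mk0 (toNZD v)) = 1} with hS₀
  set T₀ : Set (HeightOneSpectrum (𝓞 K)) := kummerSet K p (Spec.delta p K) with hT₀
  set B : Set (HeightOneSpectrum (𝓞 K)) :=
    {v | Spec.delta p K ∈ v.asIdeal} ∪ {v | (p : 𝓞 K) ∈ v.asIdeal} with hB
  have hBfin : B.Finite := (finite_setOf_mem hδ0).union (finite_setOf_mem hp0)
  have hcover : D₁ ⊆ (S₀ ∪ T₀) ∪ B := by
    intro v hv
    by_cases hvS : v ∈ S₀
    · exact Or.inl (Or.inl hvS)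
    by_cases hvB : v ∈ B
    · exact Or.inr hvB
    refine Or.inl (Or.inr ?_)
    have hvδ : Spec.delta p K ∉ v.asIdeal := fun h ↦ hvB (Or.inl h)
    have hvp : (p : 𝓞 K) ∉ v.asIdeal := fun h ↦ hvB (Or.inr h)
    refine ⟨hvp, hvδ, ?_⟩
    by_contra hx
    have hgood : Spec.IsGoodPrime p K ((toNZD v : (Ideal (𝓞 K))⁰) : Ideal (𝓞 K)) := by
      refine ⟨v.isPrime, hv, ?_, hx⟩
      intro hN
      apply hvp
      have := Ideal.absNorm_mem v.asIdeal
      rwa [show absNorm v.asIdeal = p from hN] at this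
    exact hvS (hcon (toNZD v) hgood)
  -- the key inequality
  have key : ∀ s : ℝ, 1 < s → s ≤ 2 →
      (1 - 2 / (p : ℝ)) * Real.log (1 / (s - 1)) ≤ C₁ + C₂ / p + C₃ / p + B.ncard := by
    intro s hs1 hs2
    have hppos : (0 : ℝ) < p := Nat.cast_pos.2 hp.out.pos
    have e1 := hC₁ s hs1 hs2
    have e2 := hC₂ s hs1 hs2
    have e3 := hC₃ s hs1 hs2
    have e4 : NumberField.Set.primeIdealZetaSum D₁ s ≤
        NumberField.Set.primeIdealZetaSum S₀ s + NumberField.Set.primeIdealZetaSum T₀ s +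
          NumberField.Set.primeIdealZetaSum B s := by
      have a1 := primeIdealZetaSum_mono hcover hs1
      have a2 := primeIdealZetaSum_union_le (S₀ ∪ T₀) B hs1
      have a3 := primeIdealZetaSum_union_le S₀ T₀ hs1
      linarith
    have e5 : NumberField.Set.primeIdealZetaSum B s ≤ B.ncard :=
      NumberField.Set.primeIdealZetaSum_le_card_of_finite hBfin (by linarith)
    have e2' : NumberField.Set.primeIdealZetaSum S₀ s ≤
        (Real.log (1 / (s - 1)) + C₂) / p := by
      rw [le_div_iff₀ hppos, mul_comm]; exact e2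
    have e3' : NumberField.Set.primeIdealZetaSum T₀ s ≤
        (Real.log (1 / (s - 1)) + C₃) / p := by
      rw [le_div_iff₀ hppos, mul_comm]; exact e3
    have : Real.log (1 / (s - 1)) ≤
        (Real.log (1 / (s - 1)) + C₂) / p + (Real.log (1 / (s - 1)) + C₃) / p + B.ncard + C₁ := by
      linarith
    have h6 : (Real.log (1 / (s - 1)) + C₂) / p + (Real.log (1 / (s - 1)) + C₃) / p =
        2 / (p : ℝ) * Real.log (1 / (s - 1)) + C₂ / p + C₃ / p := by
      field_simp; ring
    rw [h6] at this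
    linarith
  -- contradiction as `s → 1`
  set R : ℝ := C₁ + C₂ / p + C₃ / p + B.ncard with hR
  have hc : (0 : ℝ) < 1 - 2 / (p : ℝ) := by
    have hp3 : (3 : ℝ) ≤ p := by exact_mod_cast h3
    rw [sub_pos, div_lt_one (by linarith)]
    linarith
  set t : ℝ := max 1 (R / (1 - 2 / (p : ℝ)) + 1) with ht
  have ht1 : 1 ≤ t := le_max_left _ _
  have ht2 : R / (1 - 2 / (p : ℝ)) + 1 ≤ t := le_max_right _ _
  set s : ℝ := 1 + Real.exp (-t) with hs
  have hs1 : 1 < s := by rw [hs]; linarith [Real.exp_pos (-t)]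
  have hs2 : s ≤ 2 := by
    have : Real.exp (-t) ≤ 1 := Real.exp_le_one_iff.2 (by linarith)
    rw [hs]; linarith
  have hlog : Real.log (1 / (s - 1)) = t := by
    rw [hs, add_sub_cancel_left, one_div, ← Real.exp_neg, neg_neg, Real.log_exp]
  have := key s hs1 hs2
  rw [hlog] at this
  have h7 : R < (1 - 2 / (p : ℝ)) * t := by
    have : R / (1 - 2 / (p : ℝ)) < t := by linarith
    rwa [div_lt_iff₀ hc, mul_comm] at this
  linarith

end Assembly

end Fermat.Agent.S14.H514
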