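import Fermat.Agent.S14.EP.Density
import Fermat.Agent.S14.H514.KummerConcrete

/-!
# S14, density block: N3 in the shape `hS₂` of `EP.exists_prime_not_mem` (helper775)
-/

set_option autoImplicit false
set_option linter.style.haveILetI false

noncomputable section

namespace Fermat.Agent.S14.H514

open NumberField Ideal Filter Topology IsDedekindDomain
open scoped nonZeroDivisors

variable (K : Type) [Field K] [NumberField K]

theorem primeTerm_eq (s : ℝ) (q : HeightOneSpectrum (𝓞 K)) :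
    EP.primeTerm K s q = (absNorm q.asIdeal : ℝ) ^ (-s) := rfl

theorem two_le_absNorm (q : HeightOneSpectrum (𝓞 K)) : 2 ≤ absNorm q.asIdeal := by
  have h0 : absNorm q.asIdeal ≠ 0 := by
    rw [Ne, Ideal.absNorm_eq_zero_iff]; exact q.ne_bot
  have h1 : absNorm q.asIdeal ≠ 1 := by
    rw [Ne, Ideal.absNorm_eq_one_iff]; exact q.isPrime.ne_top
  omega

theorem primeTerm_le_half {s : ℝ} (hs : 1 ≤ s) (q : HeightOneSpectrum (𝓞 K)) :
    (absNorm q.asIdeal : ℝ) ^ (-s) ≤ 1 / 2 := by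
  have h2 : (2 : ℝ) ≤ (absNorm q.asIdeal : ℝ) := by exact_mod_cast two_le_absNorm K q
  calc (absNorm q.asIdeal : ℝ) ^ (-s) ≤ (absNorm q.asIdeal : ℝ) ^ (-1 : ℝ) :=
        Real.rpow_le_rpow_of_exponent_le (by linarith) (by linarith)
    _ = (absNorm q.asIdeal : ℝ)⁻¹ := Real.rpow_neg_one _
    _ ≤ 2⁻¹ := inv_anti₀ (by norm_num) h2
    _ = 1 / 2 := by norm_num

theorem inv_one_sub_le_exp {x : ℝ} (_h0 : 0 ≤ x) (h1 : x ≤ 1 / 2) :
    (1 - x)⁻¹ ≤ Real.exp (x + 2 * x ^ 2) := by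
  have h2 : 0 < 1 - x := by linarith
  rw [inv_le_iff_one_le_mul₀ h2]
  have h3 : 1 + (x + 2 * x ^ 2) ≤ Real.exp (x + 2 * x ^ 2) := by
    have := Real.add_one_le_exp (x + 2 * x ^ 2)
    linarith
  have h4 : 1 ≤ (1 - x) * (1 + (x + 2 * x ^ 2)) := by
    have : (1 - x) * (1 + (x + 2 * x ^ 2)) = 1 + x ^ 2 * (1 - 2 * x) := by ring
    rw [this]
    have : 0 ≤ x ^ 2 * (1 - 2 * x) := mul_nonneg (sq_nonneg x) (by linarith)
    linarith
  rw [mul_comm]
  exact h4.trans (mul_le_mul_of_nonneg_left h3 h2.le)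

/-- Finite Euler products are controlled by the corresponding sums. -/
theorem prod_eulerFactor_pow_le (p : ℕ) {s : ℝ} (hs : 1 < s)
    (T : Finset (HeightOneSpectrum (𝓞 K))) :
    ∏ q ∈ T, ((1 - EP.primeTerm K s q)⁻¹) ^ p ≤
      Real.exp (∑ q ∈ T, (p : ℝ) * (absNorm q.asIdeal : ℝ) ^ (-s) +
        2 * p * (Real.log (idealZeta K 2) + idealZeta K 2)) := by
  have hfac : ∀ q ∈ T, ((1 - EP.primeTerm K s q)⁻¹) ^ p ≤
      Real.exp ((p : ℝ) * (absNorm q.asIdeal : ℝ) ^ (-s) +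
        2 * p * (absNorm q.asIdeal : ℝ) ^ (-(2 : ℝ))) := by
    intro q _
    rw [primeTerm_eq]
    set x := (absNorm q.asIdeal : ℝ) ^ (-s) with hx
    have hx0 : 0 ≤ x := Real.rpow_nonneg (Nat.cast_nonneg _) _
    have hx1 : x ≤ 1 / 2 := primeTerm_le_half K hs.le q
    have h1 := inv_one_sub_le_exp hx0 hx1
    have h2 : ((1 - x)⁻¹) ^ p ≤ Real.exp (x + 2 * x ^ 2) ^ p :=
      pow_le_pow_left₀ (inv_nonneg.2 (by linarith)) h1 p
    refine h2.trans ?_
    rw [← Real.exp_nat_mul]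
    refine Real.exp_le_exp.2 ?_
    have h3 : x ^ 2 ≤ (absNorm q.asIdeal : ℝ) ^ (-(2 : ℝ)) := by
      have h5 : (1 : ℝ) ≤ (absNorm q.asIdeal : ℝ) := by
        have := two_le_absNorm K q
        exact_mod_cast (by omega : 1 ≤ absNorm q.asIdeal)
      rw [hx, ← Real.rpow_natCast, ← Real.rpow_mul (Nat.cast_nonneg _)]
      refine Real.rpow_le_rpow_of_exponent_le h5 ?_
      push_cast
      linarith
    have hp0 : (0 : ℝ) ≤ p := Nat.cast_nonneg p
    nlinarith [mul_le_mul_of_nonneg_left h3 hp0]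
  calc ∏ q ∈ T, ((1 - EP.primeTerm K s q)⁻¹) ^ p
      ≤ ∏ q ∈ T, Real.exp ((p : ℝ) * (absNorm q.asIdeal : ℝ) ^ (-s) +
        2 * p * (absNorm q.asIdeal : ℝ) ^ (-(2 : ℝ))) :=
        Finset.prod_le_prod (fun q _ ↦ pow_nonneg (inv_nonneg.2 (by
          have := primeTerm_le_half K hs.le q
          rw [primeTerm_eq]; linarith)) p) hfac
    _ = Real.exp (∑ q ∈ T, ((p : ℝ) * (absNorm q.asIdeal : ℝ) ^ (-s) +
        2 * p * (absNorm q.asIdeal : ℝ) ^ (-(2 : ℝ)))) := (Real.exp_sum _ _).symm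
    _ ≤ _ := by
      refine Real.exp_le_exp.2 ?_
      rw [Finset.sum_add_distrib, ← Finset.mul_sum, ← Finset.mul_sum]
      have h6 := sum_heightOne_le K T (by norm_num : (1 : ℝ) < 2)
      have hp0 : (0 : ℝ) ≤ 2 * p := by positivity
      have := mul_le_mul_of_nonneg_left h6 hp0
      linarith

/-- **N3 in the shape `hS₂`.** -/
theorem hS₂_kummer {p : ℕ} (hp : p.Prime) {ζ : K} (hζ : IsPrimitiveRoot ζ p)
    (d : 𝓞 K) (hd : ∀ b : K, b ^ p ≠ algebraMap (𝓞 K) K d) :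
    ∃ C' ε' : ℝ, 0 < ε' ∧ ∀ s : ℝ, 1 < s → s < 1 + ε' →
      ∀ T : Finset (HeightOneSpectrum (𝓞 K)), (∀ q ∈ T, q ∈ kummerSet K p d) →
        ∏ q ∈ T, ((1 - EP.primeTerm K s q)⁻¹) ^ p ≤ C' / (s - 1) := by
  classical
  obtain ⟨C, hC⟩ := exists_kummer_bound K hp hζ d hd
  refine ⟨Real.exp (C + 2 * p * (Real.log (idealZeta K 2) + idealZeta K 2)), 1, one_pos,
    fun s hs1 hs2 T hT ↦ ?_⟩
  have hs0 : 0 < s - 1 := sub_pos.2 hs1
  refine (prod_eulerFactor_pow_le K p hs1 T).trans ?_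
  have h1 := hC s hs1 (by linarith)
  -- the finite sum is at most the prime zeta sum
  have h2 : ∑ q ∈ T, (absNorm q.asIdeal : ℝ) ^ (-s) ≤
      NumberField.Set.primeIdealZetaSum (kummerSet K p d) s := by
    rw [NumberField.Set.primeIdealZetaSum_def,
      tsum_subtype (kummerSet K p d)
        (fun v : HeightOneSpectrum (𝓞 K) ↦ (absNorm v.asIdeal : ℝ) ^ (-s))]
    have h3 : ∑ q ∈ T, (absNorm q.asIdeal : ℝ) ^ (-s) =
        ∑ q ∈ T, (kummerSet K p d).indicator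
          (fun v : HeightOneSpectrum (𝓞 K) ↦ (absNorm v.asIdeal : ℝ) ^ (-s)) q :=
      Finset.sum_congr rfl fun q hq ↦ (Set.indicator_of_mem (hT q hq)
        (fun v : HeightOneSpectrum (𝓞 K) ↦ (absNorm v.asIdeal : ℝ) ^ (-s))).symm
    rw [h3]
    refine ((summable_heightOne K hs1).indicator _).sum_le_tsum T fun q _ ↦ ?_
    exact Set.indicator_nonneg (fun _ _ ↦ Real.rpow_nonneg (Nat.cast_nonneg _) _) q
  have h4 : ∑ q ∈ T, (p : ℝ) * (absNorm q.asIdeal : ℝ) ^ (-s) ≤ Real.log (1 / (s - 1)) + C := by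
    rw [← Finset.mul_sum]
    exact (mul_le_mul_of_nonneg_left h2 (Nat.cast_nonneg p)).trans h1
  calc Real.exp (∑ q ∈ T, (p : ℝ) * (absNorm q.asIdeal : ℝ) ^ (-s) +
        2 * p * (Real.log (idealZeta K 2) + idealZeta K 2))
      ≤ Real.exp (Real.log (1 / (s - 1)) +
          (C + 2 * p * (Real.log (idealZeta K 2) + idealZeta K 2))) :=
        Real.exp_le_exp.2 (by linarith)
    _ = Real.exp (C + 2 * p * (Real.log (idealZeta K 2) + idealZeta K 2)) / (s - 1) := by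
      rw [Real.exp_add, Real.exp_log (by positivity)]
      field_simp

end Fermat.Agent.S14.H514
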