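import Fermat.Agent.S14.Spec
import Fermat.Agent.S14.H514.KummerEP

/-!
# S14, density block: `Spec.DensityStatement` from N1, `δ ∉ K^p` and the exceptional bound

Uses helper775's abstract density contradiction `EP.exists_prime_not_mem` together with N3
(`hS₂_kummer`).
-/

set_option autoImplicit false
set_option linter.style.haveILetI false

noncomputable section

namespace Fermat.Agent.S14.H514

open NumberField Ideal Filter Topology IsDedekindDomain
open scoped nonZeroDivisors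

/-- The standard injective character `ZMod p → ℂˣ`. -/
def stdUnitChar (p : ℕ) [NeZero p] : Multiplicative (ZMod p) →* ℂˣ :=
  (ZMod.stdAddChar (N := p)).toMonoidHom.toHomUnits

theorem stdUnitChar_injective (p : ℕ) [NeZero p] : Function.Injective (stdUnitChar p) := by
  intro x y h
  have h1 : ((stdUnitChar p x : ℂˣ) : ℂ) = ((stdUnitChar p y : ℂˣ) : ℂ) := by rw [h]
  have h2 : ZMod.stdAddChar (N := p) (Multiplicative.toAdd x) =
      ZMod.stdAddChar (N := p) (Multiplicative.toAdd y) := h1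
  exact Multiplicative.toAdd.injective (ZMod.injective_stdAddChar h2)

theorem pow_eq_one_of_zmod (p : ℕ) [NeZero p] (x : Multiplicative (ZMod p)) : x ^ p = 1 := by
  have h := pow_card_eq_one' (G := Multiplicative (ZMod p)) (x := x)
  rwa [Nat.card_eq_fintype_card, Fintype.card_multiplicative, ZMod.card] at h

/-- The exceptional set: primes of non-prime norm, primes dividing `d` and primes above `p`. -/
def exceptionalSet (K : Type) [Field K] [NumberField K] (p : ℕ) (d : 𝓞 K) :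
    Set (HeightOneSpectrum (𝓞 K)) :=
  {q | ¬ (absNorm q.asIdeal).Prime ∨ d ∈ q.asIdeal ∨ (p : 𝓞 K) ∈ q.asIdeal}

section

variable (p : ℕ) [hp : Fact p.Prime]
variable (K : Type) [Field K] [NumberField K] [IsCyclotomicExtension {p} ℚ K]

/-- **Density block, final glue.** -/
theorem density_of_N1 (h3 : 3 ≤ p)
    (hN1 : ∀ χ : ClassGroup (𝓞 K) →* ℂˣ, χ ≠ 1 →
      ∃ B : ℝ, ∀ s : ℝ, 1 < s → s ≤ 2 → ‖EP.LFun K χ s‖ ≤ B)
    (hδ : ∀ b : K, b ^ p ≠ algebraMap (𝓞 K) K (Spec.delta p K))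
    (hS₃ : ∃ C₃ : ℝ, ∀ s : ℝ, 1 < s → s ≤ 2 →
      ∀ T : Finset (HeightOneSpectrum (𝓞 K)),
        (∀ q ∈ T, q ∈ exceptionalSet K p (Spec.delta p K)) →
        ∏ q ∈ T, (1 - EP.primeTerm K s q)⁻¹ ≤ C₃)
    (χ₀ : ClassGroup (𝓞 K) →* Multiplicative (ZMod p)) (hχ₀ : χ₀ ≠ 1) :
    ∃ Q : (Ideal (𝓞 K))⁰, Spec.IsGoodPrime p K (Q : Ideal (𝓞 K)) ∧
      χ₀ (ClassGroup.mk0 Q) ≠ 1 := by
  classical
  haveI : NeZero p := ⟨hp.out.ne_zero⟩
  have hζ : IsPrimitiveRoot (IsCyclotomicExtension.zeta p ℚ K) p :=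
    IsCyclotomicExtension.zeta_spec p ℚ K
  set χ : ClassGroup (𝓞 K) →* ℂˣ := (stdUnitChar p).comp χ₀ with hχdef
  have hχp : ∀ c, χ c ^ p = 1 := by
    intro c
    rw [hχdef, MonoidHom.comp_apply, ← map_pow, pow_eq_one_of_zmod, map_one]
  have hχne : ∀ c, χ c ≠ 1 ↔ χ₀ c ≠ 1 := by
    intro c
    rw [hχdef, MonoidHom.comp_apply, not_iff_not]
    constructor
    · intro h
      exact stdUnitChar_injective p (h.trans (map_one _).symm)
    · intro h
      rw [h, map_one]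
  have hχ1 : χ ≠ 1 := by
    intro h
    apply hχ₀
    ext c
    have h1 : χ c = 1 := by rw [h]; rfl
    have h2 : χ₀ c = 1 := by
      by_contra hne
      exact ((hχne c).2 hne) h1
    simpa using h2
  -- nontrivial powers of `χ` are nontrivial
  have hpow : ∀ k, 0 < k → k < p → χ ^ k ≠ 1 := by
    intro k hk0 hkp hk
    apply hχ1
    have hcop : Nat.Coprime k p :=
      (Nat.coprime_comm.1 ((Nat.Prime.coprime_iff_not_dvd hp.out).2
        (Nat.not_dvd_of_pos_of_lt hk0 hkp)))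
    ext c
    have h1 : χ c ^ k = 1 := by
      have := DFunLike.congr_fun hk c
      simpa using this
    have h2 := hχp c
    have h3 : orderOf (χ c) ∣ Nat.gcd k p :=
      Nat.dvd_gcd (orderOf_dvd_of_pow_eq_one h1) (orderOf_dvd_of_pow_eq_one h2)
    rw [hcop.gcd_eq_one, Nat.dvd_one, orderOf_eq_one_iff] at h3
    simpa using congrArg Units.val h3
  have hN1' : ∀ k, 0 < k → k < p →
      ∃ B : ℝ, ∀ s : ℝ, 1 < s → s ≤ 2 → ‖EP.LFun K (χ ^ k) s‖ ≤ B :=
    fun k hk0 hkp ↦ hN1 (χ ^ k) (hpow k hk0 hkp)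
  obtain ⟨q, hq1, hq2, hq3⟩ := EP.exists_prime_not_mem K hp.out h3 χ hχp hN1'
    (kummerSet K p (Spec.delta p K)) (exceptionalSet K p (Spec.delta p K))
    (hS₂_kummer K hp.out hζ (Spec.delta p K) hδ) hS₃
  refine ⟨EP.prime₀ q, ?_, (hχne _).1 hq1⟩
  have hq3' : (absNorm q.asIdeal).Prime ∧ Spec.delta p K ∉ q.asIdeal ∧
      (p : 𝓞 K) ∉ q.asIdeal := by
    have h4 : ¬ (¬ (absNorm q.asIdeal).Prime ∨ Spec.delta p K ∈ q.asIdeal ∨
        (p : 𝓞 K) ∈ q.asIdeal) := hq3
    rw [not_or, not_or, not_not] at h4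
    exact h4
  refine ⟨q.isPrime, hq3'.1, ?_, ?_⟩
  · intro hN
    apply hq3'.2.2
    have := Ideal.absNorm_mem q.asIdeal
    rwa [show absNorm q.asIdeal = p from hN] at this
  · rintro ⟨x, hx⟩
    exact hq2 ⟨hq3'.2.2, hq3'.2.1, x, hx⟩

end

end Fermat.Agent.S14.H514
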