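import Mathlib

/-!
# S14, density block: the Dedekind zeta function as a sum over nonzero ideals

For a number field `M` and a real `s > 1` we put `idealZeta M s = ∑_{I ≠ 0} N(I) ^ (-s)`.
We prove that the sum converges, equals Mathlib's `dedekindZeta M s`, and satisfies
`c / (s - 1) ≤ idealZeta M s ≤ C / (s - 1)` on `(1, 2]`.
-/

set_option autoImplicit false
set_option linter.style.haveILetI false

noncomputable section

namespace Fermat.Agent.S14.H514

open NumberField Ideal Filter Topology Asymptotics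
open scoped nonZeroDivisors

variable (M : Type) [Field M] [NumberField M]

/-- The coefficients of the Dedekind zeta function. -/
def zetaCoeff (n : ℕ) : ℝ := Nat.card {I : Ideal (𝓞 M) // absNorm I = n}

theorem zetaCoeff_nonneg (n : ℕ) : 0 ≤ zetaCoeff M n := Nat.cast_nonneg _

theorem tendsto_sum_zetaCoeff_div :
    Tendsto (fun n : ℕ ↦ (∑ k ∈ Finset.Icc 1 n, zetaCoeff M k) / (n : ℝ)) atTop
      (𝓝 (dedekindZeta_residue M)) := by
  refine ((Ideal.tendsto_norm_le_div_atTop₀ M).comp tendsto_natCast_atTop_atTop).congr fun n ↦ ?_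
  simp only [Function.comp_apply, Nat.cast_le, zetaCoeff, ← Nat.cast_sum]
  congr
  rw [← add_left_inj 1, ← card_norm_le_eq_card_norm_le_add_one,
    show Finset.Icc 1 n = Finset.Ioc 0 n from Finset.Icc_succ_left_eq_Ioc _ _,
    show 1 = Nat.card {I : Ideal (𝓞 M) // absNorm I = 0} by simp [Ideal.absNorm_eq_zero_iff],
    Finset.sum_Ioc_add_eq_sum_Icc (n.zero_le),
    ← Finset.card_preimage_eq_sum_card_image_eq (fun k _ ↦ finite_setOfPred_absNorm_eq k)]
  simp [Set.coe_eq_subtype]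

theorem lseriesSummable_zetaCoeff {s : ℝ} (hs : 1 < s) :
    LSeriesSummable (fun n ↦ (zetaCoeff M n : ℂ)) s := by
  refine LSeriesSummable_of_sum_norm_bigO_and_nonneg ?_ (zetaCoeff_nonneg M) zero_le_one
    (by simpa using hs)
  exact isBigO_atTop_natCast_rpow_of_tendsto_div_rpow (by simpa using tendsto_sum_zetaCoeff_div M)

theorem dedekindZeta_eq_lseries (s : ℂ) :
    dedekindZeta M s = LSeries (fun n ↦ (zetaCoeff M n : ℂ)) s := by
  simp [dedekindZeta, zetaCoeff]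

/-- The real terms of the Dedekind zeta function. -/
def zterm (s : ℝ) (n : ℕ) : ℝ := if n = 0 then 0 else zetaCoeff M n * (n : ℝ) ^ (-s)

theorem zterm_nonneg (s : ℝ) (n : ℕ) : 0 ≤ zterm M s n := by
  unfold zterm
  split_ifs
  · exact le_rfl
  · exact mul_nonneg (zetaCoeff_nonneg M n) (Real.rpow_nonneg (Nat.cast_nonneg n) _)

theorem lseries_term_eq (s : ℝ) (n : ℕ) :
    LSeries.term (fun n ↦ (zetaCoeff M n : ℂ)) s n = ((zterm M s n : ℝ) : ℂ) := by
  unfold zterm LSeries.term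
  split_ifs with h
  · simp
  · rw [Complex.ofReal_mul, div_eq_mul_inv, Real.rpow_neg (Nat.cast_nonneg n),
      Complex.ofReal_inv, Complex.ofReal_cpow (Nat.cast_nonneg n)]
    simp

theorem summable_zterm {s : ℝ} (hs : 1 < s) : Summable (zterm M s) := by
  have h := lseriesSummable_zetaCoeff M hs
  unfold LSeriesSummable at h
  have h2 : (fun n ↦ ((zterm M s n : ℝ) : ℂ)) = LSeries.term (fun n ↦ (zetaCoeff M n : ℂ)) s := by
    funext n; exact (lseries_term_eq M s n).symm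
  rw [← h2] at h
  exact Complex.summable_ofReal.1 h

theorem dedekindZeta_eq_tsum_zterm (s : ℝ) :
    dedekindZeta M s = ((∑' n, zterm M s n : ℝ) : ℂ) := by
  rw [dedekindZeta_eq_lseries, LSeries, Complex.ofReal_tsum]
  exact tsum_congr fun n ↦ lseries_term_eq M s n

/-- The Dedekind zeta function at a real argument, as a sum over the nonzero ideals. -/
def idealZeta (s : ℝ) : ℝ := ∑' I : (Ideal (𝓞 M))⁰, (absNorm (I : Ideal (𝓞 M)) : ℝ) ^ (-s)

theorem absNorm_ne_zero_of_mem (I : (Ideal (𝓞 M))⁰) : absNorm (I : Ideal (𝓞 M)) ≠ 0 :=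
  absNorm_ne_zero_of_nonZeroDivisors I

/-- The fibre of the norm over `n ≠ 0`. -/
def fibreEquiv {n : ℕ} (hn : n ≠ 0) :
    {I : (Ideal (𝓞 M))⁰ // absNorm (I : Ideal (𝓞 M)) = n} ≃ {I : Ideal (𝓞 M) // absNorm I = n} where
  toFun I := ⟨I.1.1, I.2⟩
  invFun I := ⟨⟨I.1, mem_nonZeroDivisors_of_ne_zero (fun h ↦ hn (by
    have := I.2
    rw [h] at this
    simpa using this.symm))⟩, I.2⟩
  left_inv I := rfl
  right_inv I := rfl

theorem tsum_fibre (s : ℝ) (n : ℕ) :
    ∑' I : {I : (Ideal (𝓞 M))⁰ // absNorm (I : Ideal (𝓞 M)) = n},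
      (absNorm (I.1 : Ideal (𝓞 M)) : ℝ) ^ (-s) = zterm M s n := by
  unfold zterm
  split_ifs with hn
  · subst hn
    haveI : IsEmpty {I : (Ideal (𝓞 M))⁰ // absNorm (I : Ideal (𝓞 M)) = 0} :=
      ⟨fun I ↦ absNorm_ne_zero_of_mem M I.1 I.2⟩
    exact tsum_empty
  · have h1 : ∀ I : {I : (Ideal (𝓞 M))⁰ // absNorm (I : Ideal (𝓞 M)) = n},
        (absNorm (I.1 : Ideal (𝓞 M)) : ℝ) ^ (-s) = (n : ℝ) ^ (-s) := fun I ↦ by rw [I.2]
    rw [tsum_congr h1]
    haveI : Finite {I : Ideal (𝓞 M) // absNorm I = n} := finite_setOfPred_absNorm_eq n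
    haveI : Finite {I : (Ideal (𝓞 M))⁰ // absNorm (I : Ideal (𝓞 M)) = n} :=
      Finite.of_equiv _ (fibreEquiv M hn).symm
    haveI := Fintype.ofFinite {I : (Ideal (𝓞 M))⁰ // absNorm (I : Ideal (𝓞 M)) = n}
    rw [tsum_fintype, Finset.sum_const, Finset.card_univ, nsmul_eq_mul, zetaCoeff,
      ← Nat.card_eq_fintype_card, Nat.card_congr (fibreEquiv M hn)]

theorem finite_fibre (n : ℕ) :
    Finite {I : (Ideal (𝓞 M))⁰ // absNorm (I : Ideal (𝓞 M)) = n} := by
  rcases eq_or_ne n 0 with rfl | hn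
  · haveI : IsEmpty {I : (Ideal (𝓞 M))⁰ // absNorm (I : Ideal (𝓞 M)) = 0} :=
      ⟨fun I ↦ absNorm_ne_zero_of_mem M I.1 I.2⟩
    infer_instance
  · haveI : Finite {I : Ideal (𝓞 M) // absNorm I = n} := finite_setOfPred_absNorm_eq n
    exact Finite.of_equiv _ (fibreEquiv M hn).symm

theorem summable_sigma_idealNorm {s : ℝ} (hs : 1 < s) :
    Summable fun q : (Σ n : ℕ, {I : (Ideal (𝓞 M))⁰ // absNorm (I : Ideal (𝓞 M)) = n}) ↦
      (absNorm (q.2.1 : Ideal (𝓞 M)) : ℝ) ^ (-s) := by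
  rw [summable_sigma_of_nonneg (fun _ ↦ Real.rpow_nonneg (Nat.cast_nonneg _) _)]
  refine ⟨fun n ↦ ?_, ?_⟩
  · haveI := finite_fibre M n
    exact Summable.of_finite
  · refine (summable_zterm M hs).congr fun n ↦ ?_
    exact (tsum_fibre M s n).symm

theorem summable_idealNorm {s : ℝ} (hs : 1 < s) :
    Summable fun I : (Ideal (𝓞 M))⁰ ↦ (absNorm (I : Ideal (𝓞 M)) : ℝ) ^ (-s) := by
  have h := summable_sigma_idealNorm M hs
  have e := Equiv.sigmaFiberEquiv fun I : (Ideal (𝓞 M))⁰ ↦ absNorm (I : Ideal (𝓞 M))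
  exact ((Equiv.sigmaFiberEquiv fun I : (Ideal (𝓞 M))⁰ ↦
    absNorm (I : Ideal (𝓞 M))).summable_iff (f := fun I : (Ideal (𝓞 M))⁰ ↦
      (absNorm (I : Ideal (𝓞 M)) : ℝ) ^ (-s))).1 h

theorem idealZeta_eq_tsum_zterm {s : ℝ} (hs : 1 < s) : idealZeta M s = ∑' n, zterm M s n := by
  unfold idealZeta
  have h1 := (Equiv.sigmaFiberEquiv fun I : (Ideal (𝓞 M))⁰ ↦
    absNorm (I : Ideal (𝓞 M))).tsum_eq (fun I : (Ideal (𝓞 M))⁰ ↦
      (absNorm (I : Ideal (𝓞 M)) : ℝ) ^ (-s))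
  rw [← h1]
  have h2 := Summable.tsum_sigma' (f := fun q : (Σ n : ℕ, {I : (Ideal (𝓞 M))⁰ //
      absNorm (I : Ideal (𝓞 M)) = n}) ↦ (absNorm (q.2.1 : Ideal (𝓞 M)) : ℝ) ^ (-s))
    (fun n ↦ by haveI := finite_fibre M n; exact Summable.of_finite)
    (summable_sigma_idealNorm M hs)
  refine Eq.trans h2 ?_
  exact tsum_congr fun n ↦ tsum_fibre M s n

theorem dedekindZeta_eq_idealZeta {s : ℝ} (hs : 1 < s) :
    dedekindZeta M s = ((idealZeta M s : ℝ) : ℂ) := by
  rw [dedekindZeta_eq_tsum_zterm, idealZeta_eq_tsum_zterm M hs]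

theorem one_le_absNorm (I : (Ideal (𝓞 M))⁰) : (1 : ℝ) ≤ (absNorm (I : Ideal (𝓞 M)) : ℝ) := by
  exact_mod_cast Nat.one_le_iff_ne_zero.2 (absNorm_ne_zero_of_mem M I)

theorem idealZeta_antitone {s t : ℝ} (hs : 1 < s) (hst : s ≤ t) :
    idealZeta M t ≤ idealZeta M s := by
  unfold idealZeta
  refine Summable.tsum_le_tsum (fun I ↦ ?_) (summable_idealNorm M (hs.trans_le hst))
    (summable_idealNorm M hs)
  exact Real.rpow_le_rpow_of_exponent_le (one_le_absNorm M I) (neg_le_neg hst)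

theorem one_le_idealZeta {s : ℝ} (hs : 1 < s) : 1 ≤ idealZeta M s := by
  unfold idealZeta
  have h := (summable_idealNorm M hs).le_tsum (1 : (Ideal (𝓞 M))⁰)
    (fun I _ ↦ Real.rpow_nonneg (Nat.cast_nonneg _) _)
  simpa using h

theorem idealZeta_pos {s : ℝ} (hs : 1 < s) : 0 < idealZeta M s :=
  lt_of_lt_of_le one_pos (one_le_idealZeta M hs)

theorem tendsto_sub_one_mul_idealZeta :
    Tendsto (fun s : ℝ ↦ (s - 1) * idealZeta M s) (𝓝[>] 1) (𝓝 (dedekindZeta_residue M)) := by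
  have h := tendsto_sub_one_mul_dedekindZeta_nhdsGT M
  have h2 := (Complex.continuous_re.tendsto _).comp h
  simp only [Complex.ofReal_re] at h2
  refine h2.congr' ?_
  filter_upwards [self_mem_nhdsWithin] with s hs
  have hs' : 1 < s := hs
  simp only [Function.comp_apply]
  rw [dedekindZeta_eq_idealZeta M hs', ← Complex.ofReal_one, ← Complex.ofReal_sub,
    ← Complex.ofReal_mul, Complex.ofReal_re]

/-- Upper bound `ζ_M(s) ≤ C / (s - 1)` on `(1, 2]`. -/
theorem exists_idealZeta_le :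
    ∃ C : ℝ, 0 < C ∧ ∀ s : ℝ, 1 < s → s ≤ 2 → idealZeta M s ≤ C / (s - 1) := by
  have h := tendsto_sub_one_mul_idealZeta M
  have h1 : ∀ᶠ s in 𝓝[>] (1 : ℝ), (s - 1) * idealZeta M s < dedekindZeta_residue M + 1 :=
    h.eventually (gt_mem_nhds (lt_add_one _))
  rw [eventually_nhdsWithin_iff, Metric.eventually_nhds_iff] at h1
  obtain ⟨ε, hε, hball⟩ := h1
  set δ := min ε 1 / 2 with hδ
  have hδpos : 0 < δ := by positivity
  have hδε : δ < ε := by
    have : min ε 1 ≤ ε := min_le_left _ _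
    rw [hδ]; linarith
  refine ⟨max (dedekindZeta_residue M + 1) (idealZeta M (1 + δ)), ?_, fun s hs1 hs2 ↦ ?_⟩
  · exact lt_max_of_lt_left (by linarith [dedekindZeta_residue_pos M])
  have hs0 : 0 < s - 1 := sub_pos.2 hs1
  rw [le_div_iff₀ hs0, mul_comm]
  rcases lt_or_ge s (1 + δ) with hlt | hge
  · refine le_trans (le_of_lt (hball ?_ hs1)) (le_max_left _ _)
    rw [Real.dist_eq, abs_of_pos hs0]
    linarith
  · refine le_trans ?_ (le_max_right _ _)
    have h3 := idealZeta_antitone M (by linarith : (1 : ℝ) < 1 + δ) hge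
    have h4 : s - 1 ≤ 1 := by linarith
    calc (s - 1) * idealZeta M s ≤ 1 * idealZeta M s :=
          mul_le_mul_of_nonneg_right h4 (idealZeta_pos M hs1).le
      _ = idealZeta M s := one_mul _
      _ ≤ idealZeta M (1 + δ) := h3

/-- Lower bound `c / (s - 1) ≤ ζ_M(s)` on `(1, 2]`. -/
theorem exists_le_idealZeta :
    ∃ c : ℝ, 0 < c ∧ ∀ s : ℝ, 1 < s → s ≤ 2 → c / (s - 1) ≤ idealZeta M s := by
  have h := tendsto_sub_one_mul_idealZeta M
  have hρ := dedekindZeta_residue_pos M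
  have h1 : ∀ᶠ s in 𝓝[>] (1 : ℝ), dedekindZeta_residue M / 2 < (s - 1) * idealZeta M s :=
    h.eventually (lt_mem_nhds (by linarith))
  rw [eventually_nhdsWithin_iff, Metric.eventually_nhds_iff] at h1
  obtain ⟨ε, hε, hball⟩ := h1
  set δ := min ε 1 / 2 with hδ
  have hδpos : 0 < δ := by positivity
  have hδε : δ < ε := by
    have : min ε 1 ≤ ε := min_le_left _ _
    rw [hδ]; linarith
  refine ⟨min (dedekindZeta_residue M / 2) δ, lt_min (by linarith) hδpos, fun s hs1 hs2 ↦ ?_⟩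
  have hs0 : 0 < s - 1 := sub_pos.2 hs1
  rw [div_le_iff₀ hs0, mul_comm]
  rcases lt_or_ge s (1 + δ) with hlt | hge
  · refine le_trans (min_le_left _ _) (le_of_lt (hball ?_ hs1))
    rw [Real.dist_eq, abs_of_pos hs0]
    linarith
  · refine le_trans (min_le_right _ _) ?_
    have h3 := one_le_idealZeta M hs1
    have h4 : δ ≤ s - 1 := by linarith
    calc δ = δ * 1 := (mul_one _).symm
      _ ≤ (s - 1) * idealZeta M s := mul_le_mul h4 h3 zero_le_one hs0.le

end Fermat.Agent.S14.H514
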