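import Mathlib

/-!
# S14, density block N3 (algebraic part): splitting of primes in a Kummer extension

`K ⊆ L` number fields, `L / K` Galois of prime degree `p`, `ζ ∈ 𝓞 K` a primitive `p`-th root of
unity, `θ ∈ 𝓞 L` with `θ ^ p = d ∈ 𝓞 K`, and `τ ∈ Gal(L/K)` with `τ θ = ζ θ`.
If `𝔮` is a prime of `𝓞 K` with `p ∉ 𝔮`, `d ∉ 𝔮` and `d` a `p`-th power modulo `𝔮`, then there are
exactly `p` primes of `𝓞 L` above `𝔮`, all of inertia degree one (so of the same absolute norm).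
-/

set_option autoImplicit false
set_option linter.style.haveILetI false

namespace Fermat.Agent.S14.H514

open NumberField Ideal Polynomial
open scoped Pointwise

section Abstract

variable {K L : Type} [Field K] [NumberField K] [Field L] [NumberField L] [Algebra K L]
  [IsGalois K L]

/-- If `ζ - 1` lies in a prime ideal then so does `p`. -/
theorem natCast_mem_of_sub_one_mem {R : Type} [CommRing R] [IsDomain R] {p : ℕ} (hp : p.Prime)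
    {ζ : R} (hζ : IsPrimitiveRoot ζ p) (I : Ideal R) (h : ζ - 1 ∈ I) : (p : R) ∈ I := by
  obtain ⟨n, rfl⟩ : ∃ n, p = n + 1 := ⟨p - 1, (Nat.succ_pred_eq_of_pos hp.pos).symm⟩
  have h1 := hζ.prod_one_sub_pow_eq_order
  have h2 : ((n + 1 : ℕ) : R) = ∏ k ∈ Finset.range n, (1 - ζ ^ (k + 1)) := by
    rw [h1]; push_cast; rfl
  rw [h2]
  have hn : 0 < n := by
    rcases Nat.eq_zero_or_pos n with h0 | h0
    · subst h0; exact absurd hp (by decide)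
    · exact h0
  have h0 : (0 : ℕ) ∈ Finset.range n := Finset.mem_range.2 hn
  rw [← Finset.mul_prod_erase _ _ h0]
  refine I.mul_mem_right _ ?_
  have : (1 : R) - ζ ^ (0 + 1) = -(ζ - 1) := by ring
  rw [this]
  exact I.neg_mem h

/-- Key step: the generator `τ` of the Galois group cannot fix a prime above `𝔮`. -/
theorem smul_ne_self_of_kummer {p : ℕ} (hp : p.Prime) {ζ : 𝓞 K} (hζ : IsPrimitiveRoot ζ p)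
    {d x : 𝓞 K} {θ : 𝓞 L} (hθ : θ ^ p = algebraMap (𝓞 K) (𝓞 L) d)
    (τ : Gal(L/K)) (hτ : τ • θ = algebraMap (𝓞 K) (𝓞 L) ζ * θ)
    (𝔮 : Ideal (𝓞 K)) (𝔔 : Ideal (𝓞 L)) [h𝔔 : 𝔔.IsPrime] [h𝔔𝔮 : 𝔔.LiesOver 𝔮]
    (hp𝔮 : (p : 𝓞 K) ∉ 𝔮) (hd : d ∉ 𝔮) (hx : x ^ p - d ∈ 𝔮) : τ • 𝔔 ≠ 𝔔 := by
  intro hfix
  haveI : NeZero p := ⟨hp.ne_zero⟩
  have hinj : Function.Injective (algebraMap (𝓞 K) (𝓞 L)) :=
    FaithfulSMul.algebraMap_injective (𝓞 K) (𝓞 L)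
  have hζ' : IsPrimitiveRoot (algebraMap (𝓞 K) (𝓞 L) ζ) p := hζ.map_of_injective hinj
  have hmem : ∀ a : 𝓞 K, algebraMap (𝓞 K) (𝓞 L) a ∈ 𝔔 ↔ a ∈ 𝔮 := by
    intro a
    rw [h𝔔𝔮.over, Ideal.mem_comap]
  -- `θ ^ p - x ^ p ∈ 𝔔`
  have h1 : θ ^ p - (algebraMap (𝓞 K) (𝓞 L) x) ^ p ∈ 𝔔 := by
    have : θ ^ p - (algebraMap (𝓞 K) (𝓞 L) x) ^ p = - algebraMap (𝓞 K) (𝓞 L) (x ^ p - d) := by
      rw [hθ, map_sub, map_pow]; ring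
    rw [this]
    exact 𝔔.neg_mem ((hmem _).2 hx)
  rw [hζ'.pow_sub_pow_eq_prod_sub_mul _ _ hp.pos] at h1
  obtain ⟨μ, hμ, hμ𝔔⟩ := (h𝔔.prod_mem_iff).1 h1
  -- `μ` is the image of a power of `ζ`
  obtain ⟨i, -, rfl⟩ := hζ'.eq_pow_of_pow_eq_one ((mem_nthRootsFinset hp.pos 1).1 hμ)
  have h2 : τ • (θ - (algebraMap (𝓞 K) (𝓞 L) ζ) ^ i * algebraMap (𝓞 K) (𝓞 L) x) ∈ 𝔔 := by
    have : τ • (θ - (algebraMap (𝓞 K) (𝓞 L) ζ) ^ i * algebraMap (𝓞 K) (𝓞 L) x) ∈ τ • 𝔔 :=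
      Ideal.smul_mem_pointwise_smul τ _ 𝔔 hμ𝔔
    rwa [hfix] at this
  have h3 : τ • (θ - (algebraMap (𝓞 K) (𝓞 L) ζ) ^ i * algebraMap (𝓞 K) (𝓞 L) x) =
      algebraMap (𝓞 K) (𝓞 L) ζ * θ - (algebraMap (𝓞 K) (𝓞 L) ζ) ^ i * algebraMap (𝓞 K) (𝓞 L) x := by
    rw [smul_sub, hτ, ← map_pow, ← map_mul, smul_algebraMap]
  rw [h3] at h2
  have h4 : (algebraMap (𝓞 K) (𝓞 L) ζ - 1) * θ ∈ 𝔔 := by
    have := 𝔔.sub_mem h2 hμ𝔔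
    convert this using 1
    ring
  rcases h𝔔.mem_or_mem h4 with h5 | h5
  · have h6 : algebraMap (𝓞 K) (𝓞 L) (ζ - 1) ∈ 𝔔 := by rwa [map_sub, map_one]
    exact hp𝔮 (natCast_mem_of_sub_one_mem hp hζ 𝔮 ((hmem _).1 h6))
  · have h6 : algebraMap (𝓞 K) (𝓞 L) d ∈ 𝔔 := by
      rw [← hθ]
      exact 𝔔.pow_mem_of_mem h5 p hp.pos
    exact hd ((hmem _).1 h6)

/-- Under the Kummer hypotheses, the stabiliser of a prime above `𝔮` is trivial. -/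
theorem stabilizer_eq_bot_of_kummer {p : ℕ} (hp : p.Prime) (hdeg : Module.finrank K L = p)
    {ζ : 𝓞 K} (hζ : IsPrimitiveRoot ζ p)
    {d x : 𝓞 K} {θ : 𝓞 L} (hθ : θ ^ p = algebraMap (𝓞 K) (𝓞 L) d)
    (τ : Gal(L/K)) (hτ : τ • θ = algebraMap (𝓞 K) (𝓞 L) ζ * θ)
    (𝔮 : Ideal (𝓞 K)) (𝔔 : Ideal (𝓞 L)) [h𝔔 : 𝔔.IsPrime] [h𝔔𝔮 : 𝔔.LiesOver 𝔮]
    (hp𝔮 : (p : 𝓞 K) ∉ 𝔮) (hd : d ∉ 𝔮) (hx : x ^ p - d ∈ 𝔮) :
    MulAction.stabilizer Gal(L/K) 𝔔 = ⊥ := by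
  have hcard : Nat.card Gal(L/K) = p := by
    rw [IsGalois.card_aut_eq_finrank, hdeg]
  haveI : Fact (Nat.card Gal(L/K)).Prime := ⟨hcard ▸ hp⟩
  rcases Subgroup.eq_bot_or_eq_top_of_prime_card (MulAction.stabilizer Gal(L/K) 𝔔) with h | h
  · exact h
  · exfalso
    have hmem : τ ∈ MulAction.stabilizer Gal(L/K) 𝔔 := by rw [h]; trivial
    exact smul_ne_self_of_kummer hp hζ hθ τ hτ 𝔮 𝔔 hp𝔮 hd hx (MulAction.mem_stabilizer_iff.1 hmem)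

/-- Under the Kummer hypotheses, there are exactly `p` primes above `𝔮`, and each of them has
inertia degree one. -/
theorem ncard_primesOver_of_kummer {p : ℕ} (hp : p.Prime) (hdeg : Module.finrank K L = p)
    {ζ : 𝓞 K} (hζ : IsPrimitiveRoot ζ p)
    {d x : 𝓞 K} {θ : 𝓞 L} (hθ : θ ^ p = algebraMap (𝓞 K) (𝓞 L) d)
    (τ : Gal(L/K)) (hτ : τ • θ = algebraMap (𝓞 K) (𝓞 L) ζ * θ)
    (𝔮 : Ideal (𝓞 K)) [h𝔮 : 𝔮.IsPrime]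
    (hp𝔮 : (p : 𝓞 K) ∉ 𝔮) (hd : d ∉ 𝔮) (hx : x ^ p - d ∈ 𝔮) :
    (𝔮.primesOver (𝓞 L)).ncard = p ∧
      ∀ 𝔔 ∈ 𝔮.primesOver (𝓞 L), absNorm 𝔔 = absNorm 𝔮 := by
  have hcard : Nat.card Gal(L/K) = p := by
    rw [IsGalois.card_aut_eq_finrank, hdeg]
  have key : ∀ 𝔔 ∈ 𝔮.primesOver (𝓞 L),
      (𝔮.primesOver (𝓞 L)).ncard = p ∧ 𝔔.inertiaDeg (𝓞 K) = 1 := by
    rintro 𝔔 ⟨h𝔔, h𝔔𝔮⟩
    have hstab := stabilizer_eq_bot_of_kummer hp hdeg hζ hθ τ hτ 𝔮 𝔔 hp𝔮 hd hx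
    have h1 := Ideal.card_stabilizer_eq_card_inertia_mul_finrank (G := Gal(L/K)) 𝔮 𝔔
    rw [hstab, Subgroup.card_bot] at h1
    have h2 := Ideal.ncard_primesOver_mul_card_inertia_mul_finrank (G := Gal(L/K)) 𝔮 𝔔
    rw [mul_assoc, ← h1, mul_one, hcard] at h2
    exact ⟨h2, (mul_eq_one.1 h1.symm).2⟩
  obtain ⟨⟨𝔔₀, h𝔔₀⟩⟩ := 𝔮.nonempty_primesOver (S := 𝓞 L)
  refine ⟨(key 𝔔₀ h𝔔₀).1, fun 𝔔 h𝔔 => ?_⟩
  haveI := h𝔔.1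
  haveI := h𝔔.2
  have := Ideal.absNorm_pow_inertiaDeg 𝔮 𝔔
  rw [(key 𝔔 h𝔔).2, pow_one] at this
  exact this.symm

end Abstract

end Fermat.Agent.S14.H514
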