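import Fermat.Agent.S14.H514.PrimeSum
import Fermat.Agent.S14.H514.KummerSplit

/-!
# S14, density block N3: the Kummer-split primes have density at most `1 / p`

Abstract form: `L / K` Galois of prime degree `p` generated by a `p`-th root `θ` of `d ∈ 𝓞 K`.
Then `p * ∑_{𝔮 split} N(𝔮)^(-s) ≤ log ζ_L(s) + ζ_L(2)`, where the sum runs over the primes `𝔮`
of `K` with `p ∉ 𝔮`, `d ∉ 𝔮` and `d` a `p`-th power modulo `𝔮`.
-/

set_option autoImplicit false
set_option linter.style.haveILetI false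

noncomputable section

namespace Fermat.Agent.S14.H514

open NumberField Ideal Filter Topology IsDedekindDomain
open scoped nonZeroDivisors

section General

variable (K : Type) [Field K] [NumberField K]

/-- The sum of `N(v)^(-s)` over any finite set of primes is at most `log ζ(s) + ζ(2)`. -/
theorem sum_heightOne_le (u : Finset (HeightOneSpectrum (𝓞 K))) {s : ℝ} (hs : 1 < s) :
    ∑ v ∈ u, (absNorm v.asIdeal : ℝ) ^ (-s) ≤ Real.log (idealZeta K s) + idealZeta K 2 := by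
  classical
  have hinj : Set.InjOn (fun v : HeightOneSpectrum (𝓞 K) ↦ v.asIdeal) (u : Set _) :=
    fun v _ w _ h ↦ HeightOneSpectrum.ext h
  have h1 : ∑ v ∈ u, (absNorm v.asIdeal : ℝ) ^ (-s) =
      ∑ P ∈ u.image (fun v : HeightOneSpectrum (𝓞 K) ↦ v.asIdeal), normTerm K s P := by
    rw [Finset.sum_image hinj]
    rfl
  rw [h1]
  refine sum_normTerm_le (fun P hP ↦ ?_) hs
  obtain ⟨v, -, rfl⟩ := Finset.mem_image.1 hP
  exact ⟨v.isPrime, v.ne_bot⟩

/-- Summability of `N(v)^(-s)` over all primes. -/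
theorem summable_heightOne {s : ℝ} (hs : 1 < s) :
    Summable fun v : HeightOneSpectrum (𝓞 K) ↦ (absNorm v.asIdeal : ℝ) ^ (-s) :=
  summable_of_sum_le (fun _ ↦ Real.rpow_nonneg (Nat.cast_nonneg _) _)
    (fun u ↦ sum_heightOne_le K u hs)

/-- Summability of `N(v)^(-s)` over any set of primes. -/
theorem summable_primeIdealZetaSum (T : Set (HeightOneSpectrum (𝓞 K))) {s : ℝ} (hs : 1 < s) :
    Summable fun v : T ↦ (absNorm v.1.asIdeal : ℝ) ^ (-s) :=
  (summable_heightOne K hs).subtype T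

/-- Every prime zeta sum is at most `log ζ(s) + ζ(2)`. -/
theorem primeIdealZetaSum_le (T : Set (HeightOneSpectrum (𝓞 K))) {s : ℝ} (hs : 1 < s) :
    NumberField.Set.primeIdealZetaSum T s ≤ Real.log (idealZeta K s) + idealZeta K 2 := by
  classical
  rw [NumberField.Set.primeIdealZetaSum_def]
  refine Real.tsum_le_of_sum_le (fun _ ↦ Real.rpow_nonneg (Nat.cast_nonneg _) _) fun u ↦ ?_
  have := sum_heightOne_le K (u.map ⟨Subtype.val, Subtype.val_injective⟩) hs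
  rwa [Finset.sum_map] at this

end General

section Kummer

variable {K L : Type} [Field K] [NumberField K] [Field L] [NumberField L] [Algebra K L]
  [IsGalois K L]

/-- The set of primes of `K` at which `d` is a `p`-th power residue (away from `p d`). -/
def kummerSet (K : Type) [Field K] [NumberField K] (p : ℕ) (d : 𝓞 K) :
    Set (HeightOneSpectrum (𝓞 K)) :=
  {v | (p : 𝓞 K) ∉ v.asIdeal ∧ d ∉ v.asIdeal ∧ ∃ x : 𝓞 K, x ^ p - d ∈ v.asIdeal}

theorem kummer_finset_sum_le {p : ℕ} (hp : p.Prime) (hdeg : Module.finrank K L = p)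
    {ζ : 𝓞 K} (hζ : IsPrimitiveRoot ζ p)
    {d : 𝓞 K} {θ : 𝓞 L} (hθ : θ ^ p = algebraMap (𝓞 K) (𝓞 L) d)
    (τ : Gal(L/K)) (hτ : τ • θ = algebraMap (𝓞 K) (𝓞 L) ζ * θ)
    (u : Finset (HeightOneSpectrum (𝓞 K))) (hu : ∀ v ∈ u, v ∈ kummerSet K p d)
    {s : ℝ} (hs : 1 < s) :
    ∑ v ∈ u, (p : ℝ) * (absNorm v.asIdeal : ℝ) ^ (-s) ≤
      Real.log (idealZeta L s) + idealZeta L 2 := by
  classical
  have hsplit : ∀ v ∈ u, (v.asIdeal.primesOver (𝓞 L)).ncard = p ∧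
      ∀ 𝔔 ∈ v.asIdeal.primesOver (𝓞 L), absNorm 𝔔 = absNorm v.asIdeal := by
    intro v hv
    obtain ⟨h1, h2, x, hx⟩ := hu v hv
    haveI := v.isPrime
    exact ncard_primesOver_of_kummer hp hdeg hζ hθ τ hτ v.asIdeal h1 h2 hx
  have hfin : ∀ v ∈ u, (v.asIdeal.primesOver (𝓞 L)).Finite := fun v hv ↦
    Set.finite_of_ncard_ne_zero (by rw [(hsplit v hv).1]; exact hp.ne_zero)
  -- the finite set of primes above `v`
  let t : HeightOneSpectrum (𝓞 K) → Finset (Ideal (𝓞 L)) := fun v ↦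
    if hv : v ∈ u then (hfin v hv).toFinset else ∅
  have ht : ∀ v (hv : v ∈ u), t v = (hfin v hv).toFinset := fun v hv ↦ dif_pos hv
  have hmem : ∀ v ∈ u, ∀ 𝔔, 𝔔 ∈ t v ↔ 𝔔 ∈ v.asIdeal.primesOver (𝓞 L) := by
    intro v hv 𝔔
    rw [ht v hv, Set.Finite.mem_toFinset]
  have hcard : ∀ v ∈ u, (t v).card = p := by
    intro v hv
    rw [ht v hv, ← Set.ncard_eq_toFinset_card _ (hfin v hv), (hsplit v hv).1]
  have hdisj : (u : Set (HeightOneSpectrum (𝓞 K))).PairwiseDisjoint t := by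
    intro v hv w hw hvw
    rw [Function.onFun, Finset.disjoint_left]
    intro 𝔔 h1 h2
    have h1' := ((hmem v hv 𝔔).1 h1).2
    have h2' := ((hmem w hw 𝔔).1 h2).2
    exact hvw (HeightOneSpectrum.ext (h1'.over.trans h2'.over.symm))
  have hsum : ∑ v ∈ u, (p : ℝ) * (absNorm v.asIdeal : ℝ) ^ (-s) =
      ∑ 𝔔 ∈ u.biUnion t, normTerm L s 𝔔 := by
    rw [Finset.sum_biUnion hdisj]
    refine Finset.sum_congr rfl fun v hv ↦ ?_
    have : ∀ 𝔔 ∈ t v, normTerm L s 𝔔 = (absNorm v.asIdeal : ℝ) ^ (-s) := by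
      intro 𝔔 h𝔔
      unfold normTerm
      rw [(hsplit v hv).2 𝔔 ((hmem v hv 𝔔).1 h𝔔)]
    rw [Finset.sum_congr rfl this, Finset.sum_const, hcard v hv, nsmul_eq_mul]
  rw [hsum]
  refine sum_normTerm_le (fun 𝔔 h𝔔 ↦ ?_) hs
  obtain ⟨v, hv, hv𝔔⟩ := Finset.mem_biUnion.1 h𝔔
  have h3 := (hmem v hv 𝔔).1 hv𝔔
  haveI := h3.2
  exact ⟨h3.1, Ideal.ne_bot_of_liesOver_of_ne_bot v.ne_bot 𝔔⟩

/-- **N3, abstract form.** -/
theorem kummer_primeIdealZetaSum_le {p : ℕ} (hp : p.Prime) (hdeg : Module.finrank K L = p)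
    {ζ : 𝓞 K} (hζ : IsPrimitiveRoot ζ p)
    {d : 𝓞 K} {θ : 𝓞 L} (hθ : θ ^ p = algebraMap (𝓞 K) (𝓞 L) d)
    (τ : Gal(L/K)) (hτ : τ • θ = algebraMap (𝓞 K) (𝓞 L) ζ * θ)
    {s : ℝ} (hs : 1 < s) :
    (p : ℝ) * NumberField.Set.primeIdealZetaSum (kummerSet K p d) s ≤
      Real.log (idealZeta L s) + idealZeta L 2 := by
  classical
  rw [NumberField.Set.primeIdealZetaSum_def, ← tsum_mul_left]
  refine Real.tsum_le_of_sum_le
    (fun _ ↦ mul_nonneg (Nat.cast_nonneg _) (Real.rpow_nonneg (Nat.cast_nonneg _) _)) fun u ↦ ?_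
  have := kummer_finset_sum_le hp hdeg hζ hθ τ hτ (u.map ⟨Subtype.val, Subtype.val_injective⟩)
    (fun v hv ↦ by
      obtain ⟨w, -, rfl⟩ := Finset.mem_map.1 hv
      exact w.2) hs
  rwa [Finset.sum_map] at this

end Kummer

end Fermat.Agent.S14.H514
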