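import Fermat.Agent.S14.H34.Interface
import Fermat.Agent.S14.H514.KummerConcrete

/-!
# S14, density block: piece N3 of helper34's interface, `H34.KummerBound K`
-/

set_option autoImplicit false
set_option linter.style.haveILetI false

noncomputable section

namespace Fermat.Agent.S14.H514

open NumberField Ideal Filter Topology IsDedekindDomain
open scoped nonZeroDivisors

variable (K : Type) [Field K] [NumberField K]

/-- Finite sums over a subset of a set of primes are bounded by the prime zeta sum. -/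
theorem sum_le_primeIdealZetaSum {A : Set (HeightOneSpectrum (𝓞 K))}
    (T : Finset (HeightOneSpectrum (𝓞 K))) (hT : ∀ q ∈ T, q ∈ A) {s : ℝ} (hs : 1 < s) :
    ∑ q ∈ T, (absNorm q.asIdeal : ℝ) ^ (-s) ≤ NumberField.Set.primeIdealZetaSum A s := by
  classical
  rw [NumberField.Set.primeIdealZetaSum_def,
    tsum_subtype A (fun v : HeightOneSpectrum (𝓞 K) ↦ (absNorm v.asIdeal : ℝ) ^ (-s))]
  have h3 : ∑ q ∈ T, (absNorm q.asIdeal : ℝ) ^ (-s) =
      ∑ q ∈ T, A.indicator
        (fun v : HeightOneSpectrum (𝓞 K) ↦ (absNorm v.asIdeal : ℝ) ^ (-s)) q :=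
    Finset.sum_congr rfl fun q hq ↦ (Set.indicator_of_mem (hT q hq)
      (fun v : HeightOneSpectrum (𝓞 K) ↦ (absNorm v.asIdeal : ℝ) ^ (-s))).symm
  rw [h3]
  refine ((summable_heightOne K hs).indicator _).sum_le_tsum T fun q _ ↦ ?_
  exact Set.indicator_nonneg (fun _ _ ↦ Real.rpow_nonneg (Nat.cast_nonneg _) _) q

/-- **Piece N3 of the density interface of helper34.** -/
theorem kummerBound_H34 : H34.KummerBound K := by
  intro p hp ζ hζ η hη
  obtain ⟨C, hC⟩ := exists_kummer_bound K hp hζ η hη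
  refine ⟨Real.exp C, 1, Real.exp_pos _, one_pos, fun s hs1 hs2 T hT ↦ ?_⟩
  have hs0 : 0 < s - 1 := sub_pos.2 hs1
  have h1 := hC s hs1 (by linarith)
  have h2 := sum_le_primeIdealZetaSum K (A := kummerSet K p η) T hT hs1
  have h3 : (p : ℝ) * ∑ q ∈ T, (absNorm q.asIdeal : ℝ) ^ (-s) ≤ Real.log (1 / (s - 1)) + C :=
    (mul_le_mul_of_nonneg_left h2 (Nat.cast_nonneg p)).trans h1
  have h4 : ∏ v ∈ T, (1 + H34.pN s v) ≤ Real.exp (∑ q ∈ T, (absNorm q.asIdeal : ℝ) ^ (-s)) := by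
    rw [Real.exp_sum]
    refine Finset.prod_le_prod (fun v _ ↦ ?_) (fun v _ ↦ ?_)
    · have : 0 ≤ H34.pN s v := Real.rpow_nonneg (Nat.cast_nonneg _) _
      linarith
    · rw [H34.pN_def, add_comm]
      exact Real.add_one_le_exp _
  have h5 : 0 ≤ ∏ v ∈ T, (1 + H34.pN s v) := Finset.prod_nonneg fun v _ ↦ by
    have : 0 ≤ H34.pN s v := Real.rpow_nonneg (Nat.cast_nonneg _) _
    linarith
  calc (∏ v ∈ T, (1 + H34.pN s v)) ^ p
      ≤ Real.exp (∑ q ∈ T, (absNorm q.asIdeal : ℝ) ^ (-s)) ^ p := pow_le_pow_left₀ h5 h4 p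
    _ = Real.exp ((p : ℝ) * ∑ q ∈ T, (absNorm q.asIdeal : ℝ) ^ (-s)) := (Real.exp_nat_mul _ _).symm
    _ ≤ Real.exp (Real.log (1 / (s - 1)) + C) := Real.exp_le_exp.2 h3
    _ = Real.exp C / (s - 1) := by
      rw [Real.exp_add, Real.exp_log (by positivity)]
      field_simp

end Fermat.Agent.S14.H514
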