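import Fermat.Agent.S14.H514.IdealZeta

/-!
# S14, density block: sums over prime ideals are bounded by `log ζ`

For a number field `M`, a finite set `S` of nonzero prime ideals and `s > 1`:
`∏_{P ∈ S} (1 + N(P)^(-s)) ≤ ζ_M(s)` and `∑_{P ∈ S} N(P)^(-s) ≤ log ζ_M(s) + ζ_M(2)`.
-/

set_option autoImplicit false
set_option linter.style.haveILetI false

noncomputable section

namespace Fermat.Agent.S14.H514

open NumberField Ideal Filter Topology
open scoped nonZeroDivisors

variable (M : Type) [Field M] [NumberField M]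

/-- the norm term as a function on all ideals (it vanishes at `⊥` for `s ≠ 0`) -/
def normTerm (s : ℝ) (I : Ideal (𝓞 M)) : ℝ := (absNorm I : ℝ) ^ (-s)

theorem normTerm_nonneg (s : ℝ) (I : Ideal (𝓞 M)) : 0 ≤ normTerm M s I :=
  Real.rpow_nonneg (Nat.cast_nonneg _) _

theorem normTerm_bot {s : ℝ} (hs : s ≠ 0) : normTerm M s ⊥ = 0 := by
  unfold normTerm
  rw [Ideal.absNorm_bot, Nat.cast_zero, Real.zero_rpow (neg_ne_zero.2 hs)]

theorem normTerm_eq_zero_of_notMem_range {s : ℝ} (hs : s ≠ 0) (I : Ideal (𝓞 M))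
    (hI : I ∉ Set.range (Subtype.val : (Ideal (𝓞 M))⁰ → Ideal (𝓞 M))) : normTerm M s I = 0 := by
  have : I = ⊥ := by
    by_contra h
    exact hI ⟨⟨I, mem_nonZeroDivisors_of_ne_zero h⟩, rfl⟩
  rw [this, normTerm_bot M hs]

theorem summable_normTerm {s : ℝ} (hs : 1 < s) : Summable (normTerm M s) := by
  have h := summable_idealNorm M hs
  exact (Function.Injective.summable_iff (f := normTerm M s) Subtype.val_injective
    (normTerm_eq_zero_of_notMem_range M (by linarith))).1 h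

theorem tsum_normTerm {s : ℝ} (hs : 1 < s) : ∑' I, normTerm M s I = idealZeta M s := by
  have h := Function.Injective.tsum_eq (f := normTerm M s)
    (g := (Subtype.val : (Ideal (𝓞 M))⁰ → Ideal (𝓞 M))) Subtype.val_injective (by
      intro I hI
      by_contra h
      exact hI (normTerm_eq_zero_of_notMem_range M (by linarith) I h))
  exact h.symm

theorem normTerm_prod {s : ℝ} (U : Finset (Ideal (𝓞 M))) :
    normTerm M s (∏ P ∈ U, P) = ∏ P ∈ U, normTerm M s P := by
  unfold normTerm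
  rw [map_prod, Nat.cast_prod, Real.finsetProd_rpow _ _ (fun _ _ ↦ Nat.cast_nonneg _)]

variable {M}

/-- The product map is injective on finite sets of nonzero primes. -/
theorem prod_injOn {S : Finset (Ideal (𝓞 M))} (hS : ∀ P ∈ S, P.IsPrime ∧ P ≠ ⊥) :
    Set.InjOn (fun U : Finset (Ideal (𝓞 M)) ↦ ∏ P ∈ U, P) (S.powerset : Set _) := by
  have key : ∀ U U' : Finset (Ideal (𝓞 M)), U ⊆ S → U' ⊆ S →
      ∏ P ∈ U, P = ∏ P ∈ U', P → U ⊆ U' := by
    intro U U' hU hU' h P hP
    have hPp : Prime P := Ideal.prime_of_isPrime (hS P (hU hP)).2 (hS P (hU hP)).1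
    have h1 : P ∣ ∏ Q ∈ U', Q := h ▸ Finset.dvd_prod_of_mem _ hP
    obtain ⟨Q, hQ, hPQ⟩ := (Prime.dvd_finsetProd_iff hPp _).1 h1
    have hQle : Q ≤ P := Ideal.dvd_iff_le.1 hPQ
    have hQmax : Q.IsMaximal := (hS Q (hU' hQ)).1.isMaximal (hS Q (hU' hQ)).2
    have : Q = P := hQmax.eq_of_le (hS P (hU hP)).1.ne_top hQle
    rwa [← this]
  intro U hU U' hU' h
  rw [Finset.mem_coe, Finset.mem_powerset] at hU hU'
  exact Finset.Subset.antisymm (key U U' hU hU' h) (key U' U hU' hU h.symm)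

/-- Finite Euler product bound. -/
theorem prod_one_add_le_idealZeta {S : Finset (Ideal (𝓞 M))} (hS : ∀ P ∈ S, P.IsPrime ∧ P ≠ ⊥)
    {s : ℝ} (hs : 1 < s) : ∏ P ∈ S, (1 + normTerm M s P) ≤ idealZeta M s := by
  classical
  rw [Finset.prod_one_add, ← tsum_normTerm M hs]
  have h1 : ∑ U ∈ S.powerset, ∏ P ∈ U, normTerm M s P =
      ∑ I ∈ S.powerset.image (fun U : Finset (Ideal (𝓞 M)) ↦ ∏ P ∈ U, P), normTerm M s I := by
    rw [Finset.sum_image (prod_injOn hS)]
    exact Finset.sum_congr rfl fun U _ ↦ (normTerm_prod M U).symm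
  rw [h1]
  exact (summable_normTerm M hs).sum_le_tsum _ (fun I _ ↦ normTerm_nonneg M s I)

theorem le_log_one_add_add_sq {x : ℝ} (hx : 0 ≤ x) : x ≤ Real.log (1 + x) + x ^ 2 := by
  have h1 : 0 < 1 + x := by linarith
  have h2 := Real.one_sub_inv_le_log_of_pos h1
  have h3 : x - x ^ 2 ≤ 1 - (1 + x)⁻¹ := by
    rw [show (1 : ℝ) - (1 + x)⁻¹ = x / (1 + x) by field_simp; ring, le_div_iff₀ h1]
    nlinarith [pow_nonneg hx 3]
  linarith

/-- The sum of `N(P)^(-s)` over a finite set of nonzero primes is at most `log ζ(s) + ζ(2)`. -/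
theorem sum_normTerm_le {S : Finset (Ideal (𝓞 M))} (hS : ∀ P ∈ S, P.IsPrime ∧ P ≠ ⊥)
    {s : ℝ} (hs : 1 < s) :
    ∑ P ∈ S, normTerm M s P ≤ Real.log (idealZeta M s) + idealZeta M 2 := by
  have h1 : ∑ P ∈ S, normTerm M s P ≤
      ∑ P ∈ S, (Real.log (1 + normTerm M s P) + normTerm M s P ^ 2) :=
    Finset.sum_le_sum fun P _ ↦ le_log_one_add_add_sq (normTerm_nonneg M s P)
  rw [Finset.sum_add_distrib] at h1
  have h2 : ∑ P ∈ S, Real.log (1 + normTerm M s P) ≤ Real.log (idealZeta M s) := by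
    rw [← Real.log_prod (fun P _ ↦ by have := normTerm_nonneg M s P; positivity)]
    refine Real.log_le_log (Finset.prod_pos fun P _ ↦ ?_) (prod_one_add_le_idealZeta hS hs)
    have := normTerm_nonneg M s P
    positivity
  have h3 : ∑ P ∈ S, normTerm M s P ^ 2 ≤ idealZeta M 2 := by
    rw [← tsum_normTerm M (by norm_num : (1 : ℝ) < 2)]
    have h4 : ∀ P ∈ S, normTerm M s P ^ 2 ≤ normTerm M 2 P := by
      intro P hP
      unfold normTerm
      have hP0 : absNorm P ≠ 0 := by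
        rw [Ne, Ideal.absNorm_eq_zero_iff]
        exact (hS P hP).2
      have h5 : (1 : ℝ) ≤ (absNorm P : ℝ) := by exact_mod_cast Nat.one_le_iff_ne_zero.2 hP0
      rw [← Real.rpow_natCast, ← Real.rpow_mul (Nat.cast_nonneg _)]
      refine Real.rpow_le_rpow_of_exponent_le h5 ?_
      push_cast
      linarith
    refine le_trans (Finset.sum_le_sum h4) ?_
    exact (summable_normTerm M (by norm_num)).sum_le_tsum _ (fun I _ ↦ normTerm_nonneg M 2 I)
  linarith

end Fermat.Agent.S14.H514
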